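import Fermat.Agent.AbVar.Count.Degree
import Mathlib.FieldTheory.PurelyInseparable.Exponent
import Mathlib.RingTheory.MvPolynomial.IrreducibleQuadratic
import Mathlib.RingTheory.NoetherNormalization

/-!
# Growth of a filtration of an affine algebra cut out by pole orders at infinity

Let `A` be a finitely generated algebra with fraction field `F` of transcendence degree `g`,
filtered by spaces whose poles at the valuation rings over the base are bounded by powers of
finitely many fixed functions. The `m`-th step has dimension at most `C * (m + 1) ^ g`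
(`exists_finrank_le`), and the `M * k`-th step at least `k ^ g` (`exists_le_finrank`).
-/

set_option autoImplicit false

universe u

noncomputable section

open MvPolynomial

namespace Fermat.Agent.AbVar.Growth

variable {K : Type u} [Field K] {F : Type u} [Field F] [Algebra K F]

/-- The hypotheses on a filtration by pole order. -/
structure PoleFiltration (A : Subalgebra K F) (V : ℕ → Submodule K F) : Prop where
  le : ∀ m, V m ≤ A.toSubmodule
  exhaust : ∀ a ∈ A, ∃ m, a ∈ V m
  one_mem : (1 : F) ∈ V 0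
  mul_mem : ∀ {m n φ ψ}, φ ∈ V m → ψ ∈ V n → φ * ψ ∈ V (m + n)
  mono : Monotone V
  bound : ∃ S : Finset F, (∀ h ∈ S, h ≠ 0) ∧ ∀ O : ValuationSubring F, (∀ c, algebraMap K F c ∈ O) →
    ∃ h ∈ S, h ∈ O ∧ ∀ m φ, φ ∈ V m → φ * h ^ m ∈ O

variable {A : Subalgebra K F} {V : ℕ → Submodule K F}

theorem PoleFiltration.pow_mem (hV : PoleFiltration A V) {m : ℕ} {φ : F} (h : φ ∈ V m) (n : ℕ) :
    φ ^ n ∈ V (n * m) := by
  induction n with
  | zero => simpa using hV.one_mem
  | succ n ih => rw [pow_succ, add_mul, one_mul]; exact hV.mul_mem ih h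

theorem PoleFiltration.prod_mem (hV : PoleFiltration A V) {ι : Type*} (s : Finset ι) {φ : ι → F}
    {m : ι → ℕ} (h : ∀ i ∈ s, φ i ∈ V (m i)) : ∏ i ∈ s, φ i ∈ V (∑ i ∈ s, m i) := by
  classical
  induction s using Finset.induction_on with
  | empty => simpa using hV.one_mem
  | insert a s ha ih =>
    rw [Finset.prod_insert ha, Finset.sum_insert ha]
    exact hV.mul_mem (h a (Finset.mem_insert_self a s))
      (ih fun i hi => h i (Finset.mem_insert_of_mem hi))

theorem finrank_restrictDegree_le (K : Type u) [Field K] (g n : ℕ) :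
    Module.finrank K (restrictDegree (Fin g) K n) ≤ (n + 1) ^ g := by
  let f : {s : Fin g →₀ ℕ | ∀ i, s i ≤ n} → Fin g → Fin (n + 1) :=
    fun s i => ⟨s.1 i, Nat.lt_succ_of_le (s.2 i)⟩
  have hf : Function.Injective f := fun s s' e => Subtype.ext (Finsupp.ext fun i =>
    Fin.val_eq_of_eq (congrFun e i))
  have := Finite.of_injective f hf
  rw [restrictDegree, Module.finrank_eq_nat_card_basis (MvPolynomial.basisRestrictSupport K _)]
  exact (Nat.card_le_card_of_injective f hf).trans (by simp)

/-- Noether normalisation of `A` in the form used here. -/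
theorem exists_param [Algebra.FiniteType K A] (hfrac : ∀ φ : F, ∃ a ∈ A, ∃ b ∈ A, b ≠ 0 ∧ φ = a / b)
    {g : ℕ} (htr : Algebra.trdeg K F = g) :
    ∃ ν : Poly K g →ₐ[K] F, Function.Injective ν ∧ (∀ p, ν p ∈ A) ∧
      ∀ a ∈ A, ν.toRingHom.IsIntegralElem a := by
  obtain ⟨s, ν, hinj, hfin⟩ := exists_finite_inj_algHom_of_fg K A
  have hint : ∀ a ∈ A, (A.val.comp ν).toRingHom.IsIntegralElem a := fun a ha => by
    obtain ⟨p, hp, hpz⟩ := hfin.to_isIntegral ⟨a, ha⟩
    refine ⟨p, hp, ?_⟩
    have := congrArg A.val.toRingHom hpz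
    rwa [Polynomial.hom_eval₂, map_zero] at this
  let : Algebra (MvPolynomial (Fin s) K) F := (A.val.comp ν).toRingHom.toAlgebra
  have : IsScalarTower K (MvPolynomial (Fin s) K) F :=
    IsScalarTower.of_algebraMap_eq fun c => ((A.val.comp ν).commutes c).symm
  have : FaithfulSMul (MvPolynomial (Fin s) K) F :=
    (faithfulSMul_iff_algebraMap_injective _ _).2 (Subtype.val_injective.comp hinj)
  have : Algebra.IsAlgebraic (MvPolynomial (Fin s) K) F := by
    refine ⟨fun φ => ?_⟩
    obtain ⟨a, ha, b, hb, hb0, rfl⟩ := hfrac φ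
    rw [div_eq_mul_inv]
    exact IsAlgebraic.mul (IsIntegral.isAlgebraic (hint a ha))
      (IsAlgebraic.inv (IsIntegral.isAlgebraic (hint b hb)))
  have h1 := trdeg_add_eq K (MvPolynomial (Fin s) K) (A := F)
  rw [trdeg_eq_zero (R := MvPolynomial (Fin s) K) (A := F), add_zero, htr,
    MvPolynomial.trdeg_of_isDomain, Cardinal.mk_fin, Cardinal.lift_natCast] at h1
  obtain rfl : s = g := by exact_mod_cast h1
  exact ⟨A.val.comp ν, Subtype.val_injective.comp hinj, fun p => (ν p).2, hint⟩

theorem exists_unif_pow_mul_isIntegral (K : Type u) [Field K] (g : ℕ) {L : Type u} [Field L]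
    [Algebra (Rat K g) L] [Algebra.IsAlgebraic (Rat K g) L] (x : L) :
    ∃ c, IsIntegral (atInfinity K g) (algebraMap (Rat K g) L (unif K g) ^ c * x) := by
  obtain ⟨o, ho, hoint⟩ := ((IsFractionRing.isAlgebraic_iff (atInfinity K g) (Rat K g) L).2
    (Algebra.IsAlgebraic.isAlgebraic (R := Rat K g) x)).exists_integral_multiple
  obtain ⟨c, hc⟩ := exists_unif_pow_mul_mem K g ((o : Rat K g))⁻¹
  refine ⟨c, ?_⟩
  have ho' : (o : Rat K g) ≠ 0 := fun h => ho (Subtype.ext h)
  have e' : algebraMap (Rat K g) L (unif K g) ^ c * x =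
      algebraMap (atInfinity K g) L ⟨_, hc c le_rfl⟩ * (o • x) := by
    rw [Algebra.smul_def, IsScalarTower.algebraMap_apply (atInfinity K g) (Rat K g) L,
      IsScalarTower.algebraMap_apply (atInfinity K g) (Rat K g) L, ← mul_assoc, ← map_mul,
      ← map_pow]
    congr 2
    change _ = (unif K g ^ c * (o : Rat K g)⁻¹) * (o : Rat K g)
    rw [mul_assoc, inv_mul_cancel₀ ho', mul_one]
  rw [e']
  exact isIntegral_algebraMap.mul hoint

theorem exists_forall_finrank_le (K : Type u) [Field K] (g : ℕ) (L : Type u) [Field L]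
    [Algebra (Rat K g) L] [FiniteDimensional (Rat K g) L] [Algebra.IsSeparable (Rat K g) L]
    [Algebra (Poly K g) L] [IsScalarTower (Poly K g) (Rat K g) L] [Algebra K L]
    [IsScalarTower K (Rat K g) L] :
    ∃ c₀ : ℕ, ∀ n (W : Submodule K L), (∀ z ∈ W, IsIntegral (Poly K g) z ∧
      IsIntegral (atInfinity K g) (algebraMap (Rat K g) L (unif K g) ^ n * z)) →
        Module.Finite K W ∧ Module.finrank K W ≤ Module.finrank (Rat K g) L * (n + c₀ + 1) ^ g := by
  classical
  -- Take a basis of `L` over `K(x)` integral over `K[x]`, of bounded pole orders at infinity.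
  let b := Module.finBasis (Rat K g) L
  choose y hy0 hyint using fun j =>
    ((IsFractionRing.isAlgebraic_iff (Poly K g) (Rat K g) L).2
      (Algebra.IsAlgebraic.isAlgebraic (R := Rat K g) (b j))).exists_integral_multiple
  let e : Fin (Module.finrank (Rat K g) L) → L := fun j => y j • b j
  choose c hc using fun j => exists_unif_pow_mul_isIntegral K g (e j)
  refine ⟨Finset.univ.sup c, fun n W hW => ?_⟩
  let c₀ := Finset.univ.sup c
  -- For `z` in `W` each trace `Tr (z e_j)` is a polynomial of degree at most `n + c₀`.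
  have htrace : ∀ z ∈ W, ∀ j, ∃ a ∈ restrictDegree (Fin g) K (n + c₀),
      algebraMap (Poly K g) (Rat K g) a = Algebra.trace (Rat K g) L (z * e j) := by
    intro z hz j
    obtain ⟨a, ha⟩ := IsIntegrallyClosed.isIntegral_iff.1
      (Algebra.isIntegral_trace (L := Rat K g) ((hW z hz).1.mul (hyint j)))
    refine ⟨a, restrictTotalDegree_le_restrictDegree _ _ _ ((mem_restrictTotalDegree _ _ _).2
      (totalDegree_le_of_unif_pow_mul_mem K g ?_)), ha⟩
    obtain ⟨d, hd⟩ := Nat.exists_eq_add_of_le (Finset.le_sup (f := c) (Finset.mem_univ j) :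
      c j ≤ c₀)
    have hone : IsIntegral (atInfinity K g) (algebraMap (atInfinity K g) L ⟨unif K g,
        unif_mem K g⟩) :=
      isIntegral_algebraMap
    have hprod := Algebra.isIntegral_trace (L := Rat K g)
      (((hW z hz).2.mul (hc j)).mul (hone.pow d))
    have e' : algebraMap (Rat K g) L (unif K g) ^ n * z *
        (algebraMap (Rat K g) L (unif K g) ^ c j * e j) *
        algebraMap (atInfinity K g) L ⟨unif K g, unif_mem K g⟩ ^ d =
            (unif K g ^ (n + c₀)) • (z * e j) := by
      rw [Algebra.smul_def, map_pow, show c₀ = c j + d from hd,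
        IsScalarTower.algebraMap_apply (atInfinity K g) (Rat K g) L]
      change _ * algebraMap (Rat K g) L (unif K g) ^ d = _
      ring
    rw [e', map_smul, smul_eq_mul, ← ha] at hprod
    obtain ⟨o, ho⟩ := IsIntegrallyClosed.isIntegral_iff.1 hprod
    rw [← ho]
    exact o.2
  let Q : Submodule K (Rat K g) := (restrictDegree (Fin g) K (n + c₀)).map
    (IsScalarTower.toAlgHom K (Poly K g) (Rat K g)).toLinearMap
  have hQ : Module.Finite K Q := Module.Finite.map _ _
  let T₀ : Fin (Module.finrank (Rat K g) L) → W →ₗ[K] Q := fun j =>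
    (((Algebra.trace (Rat K g) L).restrictScalars K ∘ₗ LinearMap.mulRight K (e j)) ∘ₗ
      W.subtype).codRestrict Q
      fun z => htrace z z.2 j
  -- As the trace form is nondegenerate, these traces embed `W` in a product of such spaces.
  let T : W →ₗ[K] Fin (Module.finrank (Rat K g) L) → Q := LinearMap.pi T₀
  have hT : Function.Injective T := (injective_iff_map_eq_zero T).2 fun z hz => by
    refine Subtype.ext ((traceForm_nondegenerate (Rat K g) L).1 (z : L) fun w => ?_)
    rw [← b.sum_repr w, map_sum]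
    refine Finset.sum_eq_zero fun j _ => ?_
    rw [map_smul]
    have h1 : Algebra.trace (Rat K g) L ((z : L) * e j) = 0 := congrArg Subtype.val (congrFun hz j)
    have h2 : e j = algebraMap (Poly K g) (Rat K g) (y j) • b j :=
      (algebraMap_smul (Rat K g) (y j) (b j)).symm
    rw [h2, mul_smul_comm, map_smul, smul_eq_mul, mul_eq_zero] at h1
    rw [Algebra.traceForm_apply, h1.resolve_left
      ((map_ne_zero_iff _ (IsFractionRing.injective _ _)).2 (hy0 j)), smul_zero]
  refine ⟨Module.Finite.of_injective T hT, (LinearMap.finrank_le_finrank_of_injective hT).trans ?_⟩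
  rw [Module.finrank_pi_fintype, Finset.sum_const, Finset.card_univ, Fintype.card_fin, smul_eq_mul]
  exact Nat.mul_le_mul_left _
    ((Submodule.finrank_map_le _ _).trans (finrank_restrictDegree_le K g _))

/-- A field of fractions of a finitely generated algebra integral over the polynomial ring is finite
over the rational functions. -/
private theorem finiteDimensional_of_isIntegral [Algebra.FiniteType K A] {g : ℕ}
    [Algebra (Poly K g) F] [Algebra (Rat K g) F] [IsScalarTower (Poly K g) (Rat K g) F]
    [IsScalarTower K (Rat K g) F] (hfrac : ∀ φ : F, ∃ a ∈ A, ∃ b ∈ A, b ≠ 0 ∧ φ = a / b)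
    (hintA : ∀ a ∈ A, IsIntegral (Poly K g) a) :
    FiniteDimensional (Rat K g) F := by
  obtain ⟨G, hG⟩ := (Subalgebra.fg_top A).1 (Algebra.FiniteType.out (R := K) (A := A))
  let E : IntermediateField (Rat K g) F := IntermediateField.adjoin (Rat K g) (G : Set F)
  have : FiniteDimensional (Rat K g) E := IntermediateField.finiteDimensional_adjoin fun x hx =>
    (hintA x (hG ▸ Algebra.subset_adjoin hx)).tower_top
  have hAE : A ≤ (E.toSubalgebra.restrictScalars K) := by
    rw [← hG, Algebra.adjoin_le_iff]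
    exact IntermediateField.subset_adjoin _ _
  have : E = ⊤ := eq_top_iff.2 fun φ _ => by
    obtain ⟨a, ha, b, hb, -, rfl⟩ := hfrac φ
    exact div_mem (hAE ha : a ∈ E) (hAE hb : b ∈ E)
  exact Module.Finite.equiv
    (((IntermediateField.equivOfEq this).trans IntermediateField.topEquiv).toLinearEquiv)

omit [Algebra K F] in
/-- A nonzero function has inverse bounded by a power of the uniformiser where it is regular. -/
private theorem exists_unif_pow_mul_inv_mem {g : ℕ} [Algebra (Rat K g) F]
    [Algebra.IsAlgebraic (Rat K g) F] (h : F) : ∃ r, ∀ O : ValuationSubring F,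
      (∀ o ∈ atInfinity K g, algebraMap (Rat K g) F o ∈ O) → h ∈ O →
        algebraMap (Rat K g) F (unif K g) ^ r * h⁻¹ ∈ O := by
  have hinv : h⁻¹ ∈ Algebra.adjoin (Rat K g) ({h} : Set F) :=
    Subalgebra.inv_mem_of_algebraic _ (x := ⟨h, Algebra.self_mem_adjoin_singleton _ h⟩)
      (Algebra.IsAlgebraic.isAlgebraic (R := Rat K g) h)
  rw [Algebra.adjoin_singleton_eq_range_aeval] at hinv
  obtain ⟨P, hP⟩ := hinv
  choose n hn using fun i => exists_unif_pow_mul_mem K g (P.coeff i)
  refine ⟨(Finset.range (P.natDegree + 1)).sup n, fun O hO hhO => ?_⟩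
  rw [← hP, ← map_pow]
  change algebraMap (Rat K g) F _ * Polynomial.aeval h P ∈ O
  rw [Polynomial.aeval_eq_sum_range, Finset.mul_sum]
  refine sum_mem fun i hi => ?_
  rw [Algebra.smul_def, ← mul_assoc, ← map_mul]
  exact mul_mem (hO _ (hn i _ (Finset.le_sup hi))) (pow_mem hhO i)

/-- In exponential characteristic `p`, a space whose `p ^ n`-th powers come from a finite
dimensional space is at most as large. -/
private theorem rank_le_of_pow_mem [IsAlgClosed K] {p n : ℕ} [ExpChar F p] {E : Type u} [Field E]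
    [Algebra K E] (f : E →ₐ[K] F) {V₀ : Submodule K F} {W : Submodule K E} [Module.Finite K W]
    (h : ∀ φ ∈ V₀, ∃ z ∈ W, f z = φ ^ p ^ n) :
    Module.rank K V₀ ≤ (Module.finrank K W : ℕ) := by
  classical
  refine rank_le fun s hs => ?_
  choose z hzW hz using fun φ : V₀ => h φ φ.2
  have hli : LinearIndependent K (fun x : s => (⟨z x, hzW x⟩ : W)) := by
    rw [Fintype.linearIndependent_iff] at hs ⊢
    intro a ha i
    have hq : 0 < p ^ n := pow_pos (expChar_pos F p) _
    choose d hd using fun i => IsAlgClosed.exists_pow_nat_eq (a i) hq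
    have h1 : ∑ i : s, (d i • ((i : V₀) : F)) ^ p ^ n = 0 := by
      simpa [← hd, hz, map_smul, smul_pow] using congrArg (fun x : W => f x) ha
    rw [← sum_pow_char_pow, pow_eq_zero_iff hq.ne'] at h1
    have h3 := hs d (Subtype.ext (by simpa using h1)) i
    rw [← hd, h3, zero_pow hq.ne']
  simpa using hli.fintype_card_le_finrank

/-- The upper bound on the growth. -/
theorem exists_finrank_le [IsAlgClosed K] [Algebra.FiniteType K A] (hV : PoleFiltration A V)
    (hfrac : ∀ φ : F, ∃ a ∈ A, ∃ b ∈ A, b ≠ 0 ∧ φ = a / b) {g : ℕ} (htr : Algebra.trdeg K F = g) :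
    ∃ C : ℕ, ∀ m, Module.Finite K (V m) ∧ Module.finrank K (V m) ≤ C * (m + 1) ^ g := by
  classical
  obtain ⟨ν, hinj, hνA, hint⟩ := exists_param hfrac htr
  let : Algebra (Poly K g) F := ν.toRingHom.toAlgebra
  have : IsScalarTower K (Poly K g) F := IsScalarTower.of_algebraMap_eq fun c => (ν.commutes c).symm
  have : FaithfulSMul (Poly K g) F := (faithfulSMul_iff_algebraMap_injective _ _).2 hinj
  let : Algebra (Rat K g) F := FractionRing.liftAlgebra (Poly K g) F
  have : IsScalarTower K (Rat K g) F := IsScalarTower.of_algebraMap_eq fun c => by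
    rw [IsScalarTower.algebraMap_apply K (Poly K g) (Rat K g),
      ← IsScalarTower.algebraMap_apply (Poly K g) (Rat K g) F,
      ← IsScalarTower.algebraMap_apply K (Poly K g) F]
  have hintA : ∀ a ∈ A, IsIntegral (Poly K g) a := hint
  have : FiniteDimensional (Rat K g) F := finiteDimensional_of_isIntegral hfrac hintA
  let Fs := separableClosure (Rat K g) F
  let p := ringExpChar Fs
  let q := p ^ IsPurelyInseparable.exponent Fs F
  have : ExpChar F p := expChar_of_injective_algebraMap (algebraMap Fs F).injective p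
  have hq : 0 < q := pow_pos (expChar_pos Fs p) _
  -- integral bounds
  obtain ⟨S, hS0, hS⟩ := hV.bound
  choose r₀ hr₀ using fun h (_ : h ∈ S) => exists_unif_pow_mul_inv_mem (K := K) (g := g) h
  let r := S.attach.sup fun h => r₀ h.1 h.2
  have hπ : ∀ {O : ValuationSubring F}, (∀ o ∈ atInfinity K g, algebraMap (Rat K g) F o ∈ O) →
      algebraMap (Rat K g) F (unif K g) ∈ O := fun hO => hO _ (unif_mem K g)
  have hφint : ∀ m φ, φ ∈ V m →
      IsIntegral (atInfinity K g) (algebraMap (Rat K g) F (unif K g) ^ (r * m) * φ) := by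
    intro m φ hφ
    refine isIntegral_of_forall_mem K g fun O hO => ?_
    obtain ⟨h, hh, hhO, hhm⟩ := hS O fun c => by
      rw [IsScalarTower.algebraMap_apply K (Rat K g) F]
      exact hO _ (algebraMap_mem_atInfinity K g c)
    obtain ⟨e, he⟩ := Nat.exists_eq_add_of_le (Finset.le_sup (f := fun h : S => r₀ h.1 h.2)
      (Finset.mem_attach S ⟨h, hh⟩))
    have h0 := hS0 h hh
    have e' : algebraMap (Rat K g) F (unif K g) ^ (r * m) * φ =
        algebraMap (Rat K g) F (unif K g) ^ (e * m) *
        (algebraMap (Rat K g) F (unif K g) ^ r₀ h hh * h⁻¹) ^ m * (φ * h ^ m) := by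
      rw [show r = r₀ h hh + e from he, add_mul, pow_add, mul_pow, ← pow_mul, inv_pow]
      field_simp
    rw [e']
    exact mul_mem (mul_mem (pow_mem (hπ hO) _) (pow_mem (hr₀ h hh O hO hhO) m)) (hhm m φ hφ)
  obtain ⟨c₀, hc₀⟩ := exists_forall_finrank_le K g Fs
  let W : ℕ → Submodule K Fs := fun n => (V n).comap (Fs.val.toLinearMap.restrictScalars K)
  have : IsScalarTower (Poly K g) Fs F := IsScalarTower.of_algebraMap_eq fun x => by
    rw [IsScalarTower.algebraMap_apply (Poly K g) (Rat K g) F,
      IsScalarTower.algebraMap_apply (Poly K g) (Rat K g) Fs,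
      ← IsScalarTower.algebraMap_apply (Rat K g) Fs F]
  have hW : ∀ n, Module.Finite K (W n) ∧
      Module.finrank K (W n) ≤ Module.finrank (Rat K g) Fs * (r * n + c₀ + 1) ^ g := fun n =>
    hc₀ _ _ fun z hz => ⟨(isIntegral_algebraMap_iff (algebraMap Fs F).injective).1
        (hintA _ (hV.le n hz)), by
      have h := hφint n _ hz
      rw [← isIntegral_algHom_iff (Fs.val.restrictScalars (atInfinity K g))
        (algebraMap Fs F).injective, map_mul, map_pow]
      exact h⟩
  refine ⟨Module.finrank (Rat K g) Fs * (r * q + c₀ + 1) ^ g, fun m => ?_⟩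
  have := (hW (q * m)).1
  have hrank : Module.rank K (V m) ≤ (Module.finrank K (W (q * m)) : ℕ) :=
    rank_le_of_pow_mem (p := p) (n := IsPurelyInseparable.exponent Fs F) (Fs.val.restrictScalars K)
      fun φ hφ => by
        obtain ⟨z, hz⟩ := IsPurelyInseparable.exponent_def' Fs p φ
        refine ⟨z, ?_, hz⟩
        change algebraMap Fs F z ∈ V (q * m)
        rw [hz]
        exact hV.pow_mem hφ q
  refine ⟨Module.rank_lt_aleph0_iff.1 (hrank.trans_lt (Cardinal.natCast_lt_aleph0)), ?_⟩
  refine (Module.finrank_le_of_rank_le hrank).trans ((hW (q * m)).2.trans ?_)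
  rw [mul_assoc, ← mul_pow]
  refine Nat.mul_le_mul_left _ (Nat.pow_le_pow_left ?_ g)
  calc r * (q * m) + c₀ + 1 ≤ r * q * m + r * q + c₀ * m + c₀ + m + 1 := by rw [← mul_assoc]; omega
    _ = (r * q + c₀ + 1) * (m + 1) := by ring

/-- The lower bound on the growth. -/
theorem exists_le_finrank [Algebra.FiniteType K A] (hV : PoleFiltration A V)
    (hfrac : ∀ φ : F, ∃ a ∈ A, ∃ b ∈ A, b ≠ 0 ∧ φ = a / b) {g : ℕ} (htr : Algebra.trdeg K F = g)
    (hfin : ∀ m, Module.Finite K (V m)) :
    ∃ M : ℕ, ∀ k, k ^ g ≤ Module.finrank K (V (M * k)) := by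
  classical
  obtain ⟨ν, hinj, hνA, -⟩ := exists_param hfrac htr
  choose m₀ hm₀ using fun i => hV.exhaust _ (hνA (X i))
  refine ⟨∑ i, m₀ i, fun k => ?_⟩
  have := hfin ((∑ i, m₀ i) * k)
  let w : (Fin g → Fin k) → Fin g →₀ ℕ := fun α => Finsupp.equivFunOnFinite.symm fun i => (α i : ℕ)
  have hmem : ∀ α, ν (monomial (w α) 1) ∈ V ((∑ i, m₀ i) * k) := fun α => by
    rw [monomial_eq, map_mul, Finsupp.prod_fintype _ _ (fun i => pow_zero _), map_prod]
    simp only [map_pow, map_one, one_mul]
    refine hV.mono ?_ (hV.prod_mem Finset.univ fun i _ => hV.pow_mem (hm₀ i) (w α i))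
    rw [Finset.sum_mul]
    exact Finset.sum_le_sum fun i _ => by
      rw [mul_comm (m₀ i)]
      exact Nat.mul_le_mul_right _ (α i).2.le
  have hli : LinearIndependent K fun α => (⟨_, hmem α⟩ : V ((∑ i, m₀ i) * k)) := by
    refine LinearIndependent.of_comp (Submodule.subtype _) ?_
    refine LinearIndependent.map' (v := fun α => monomial (w α) (1 : K)) ?_ ν.toLinearMap
      (LinearMap.ker_eq_bot.2 hinj)
    exact (basisMonomials (Fin g) K).linearIndependent.comp w fun α β e => funext fun i =>
      Fin.ext (congrArg (fun s : Fin g →₀ ℕ => s i) e)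
  simpa using hli.fintype_card_le_finrank

end Fermat.Agent.AbVar.Growth

end
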