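import Fermat.Agent.AbVar.Count.Regular

/-!
# The pull-back of the filtration along a finite endomorphism

An endomorphism `ν` over the base carries sections of `m D` to sections of `m ν^*D`; linearly
equivalent divisors have isomorphic spaces of sections; on a normal scheme the trace of a finite
separable `ν` carries sections of `m ν^*D` back to sections of `m D`.
-/

set_option autoImplicit false

universe u

noncomputable section

open CategoryTheory AlgebraicGeometry TopologicalSpace

namespace Fermat.Agent.AbVar.Growth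

variable {X : Scheme.{u}} [IsIntegral X] {K : Type u} [Field K] (f : X ⟶ Spec (CommRingCat.of K))
  (ν : X ⟶ X) [IsDominant ν]

/-- The endomorphism of the function field over the base field. -/
def ffAlgHom (hν : ν ≫ f = f) :
    letI := ffAlgebra f; X.functionField →ₐ[K] X.functionField :=
  letI := ffAlgebra f
  { ffMap ν with
    commutes' := fun c => by
      have hη : genericPoint X ∈ (⊤ : X.Opens) := trivial
      have : Nonempty (⊤ : X.Opens) := ⟨⟨genericPoint X, trivial⟩⟩
      let k := (Scheme.ΓSpecIso (CommRingCat.of K)).inv c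
      have e : ∀ z : X, algebraMap K X.functionField c = ffVal (W := ⊤) z trivial (f.appTop k) :=
        fun z => (ffVal_eq_germToFunctionField (W := ⊤) z trivial _).symm
      change ffMap ν (algebraMap K X.functionField c) = algebraMap K X.functionField c
      refine (congrArg (ffMap ν) (e (ν.base (genericPoint X)))).trans ?_
      refine (ffVal_appLE ν (U := ⊤) (V := ⊤) le_rfl (genericPoint X) hη (f.appTop k)).symm.trans ?_
      refine Eq.trans ?_ (e (genericPoint X)).symm
      refine congrArg _ ?_
      have h := congrArg (fun r : X ⟶ Spec (CommRingCat.of K) => r.appTop k) hν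
      refine Eq.trans ?_ h
      exact congrArg (fun r => r.hom (f.appTop k)) (ν.app_eq_appLE (U := ⊤)).symm }



/-- Pull-back of rational functions maps the sections of a multiple of a divisor into those of
its inverse image. -/
theorem map_mem_secs_comap {D : DivData X} {m : ℕ} {φ : X.functionField} (hφ : φ ∈ secs f D m) :
    ffMap ν φ ∈ secs f (D.comap ν) m := fun a => by
  have h := (hφ a).comap ν
  rw [map_mul, map_pow] at h
  exact h

/-- Linearly equivalent divisors have isomorphic sections. -/
theorem nonempty_secs_equiv {D E : DivData X} {N : ℕ} (h : D.LinEquivPow E N) (m : ℕ) :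
    letI := ffAlgebra f; Nonempty (secs f D m ≃ₗ[K] secs f E (N * m)) := by
  let := ffAlgebra f
  obtain ⟨ψ, hψ, hu⟩ := h
  have hψm : ψ ^ m ≠ 0 := pow_ne_zero m hψ
  have key : ∀ φ, φ * (ψ ^ m)⁻¹ ∈ secs f D m ↔ φ ∈ secs f E (N * m) := by
    intro φ
    constructor
    · intro hφ b y hy
      obtain ⟨a, ha⟩ := Opens.mem_iSup.mp (D.covers.ge (Opens.mem_top y))
      have e : φ * E.h b ^ (N * m) = φ * (ψ ^ m)⁻¹ * D.h a ^ m *
          ((D.h a / (E.h b ^ N * ψ))⁻¹) ^ m := by
        have := D.ne_zero a
        have := E.ne_zero b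
        rw [inv_div, div_pow, mul_pow, ← pow_mul]
        field_simp
      rw [e]
      exact mul_mem (S := Subring X.functionField) (s := localRing y) (hφ a y ha)
        (pow_mem ((hu a b).2.2 y ⟨ha, hy⟩ : _ ∈ localRing y) m)
    · intro hφ a y hy
      obtain ⟨b, hb⟩ := Opens.mem_iSup.mp (E.covers.ge (Opens.mem_top y))
      have e : φ * (ψ ^ m)⁻¹ * D.h a ^ m = φ * E.h b ^ (N * m) * (D.h a / (E.h b ^ N * ψ)) ^ m := by
        have := E.ne_zero b
        rw [div_pow, mul_pow, ← pow_mul]
        field_simp
      rw [e]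
      exact mul_mem (S := Subring X.functionField) (s := localRing y) (hφ b y hb)
        (pow_mem ((hu a b).2.1 y ⟨hy, hb⟩ : _ ∈ localRing y) m)
  have hD : ∀ φ, φ ∈ secs f D m ↔ φ * ψ ^ m ∈ secs f E (N * m) := fun φ => by
    rw [← key (φ * ψ ^ m), mul_inv_cancel_right₀ hψm]
  exact ⟨{
    toFun := fun φ => ⟨φ.1 * ψ ^ m, (hD φ.1).1 φ.2⟩
    map_add' := fun _ _ => Subtype.ext (add_mul _ _ _)
    map_smul' := fun _ _ => Subtype.ext (smul_mul_assoc _ _ _)
    invFun := fun φ => ⟨φ.1 * (ψ ^ m)⁻¹, (key φ.1).2 φ.2⟩
    left_inv := fun _ => Subtype.ext (mul_inv_cancel_right₀ hψm _)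
    right_inv := fun _ => Subtype.ext (inv_mul_cancel_right₀ hψm _) }⟩

/-- An element whose image is a trace of an integral element is integral. -/
theorem isIntegral_of_trace {R F : Type u} [CommRing R] [Field F] (j : R →+* F) (ι : F →+* F)
    [FiniteDimensional ι.fieldRange F] {x t : F}
    (hx : (ι.comp j).IsIntegralElem x) (ht : ι t = (Algebra.trace ι.fieldRange F x : F)) :
    j.IsIntegralElem t := by
  let : Algebra R F := (ι.comp j).toAlgebra
  let : Algebra R ι.fieldRange := (ι.rangeRestrictField.comp j).toAlgebra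
  have : IsScalarTower R ι.fieldRange F := IsScalarTower.of_algebraMap_eq fun _ => rfl
  obtain ⟨Q, hQ, hQt⟩ :=
    Algebra.isIntegral_trace (R := R) (L := ι.fieldRange) (show IsIntegral R x from hx)
  refine ⟨Q, hQ, ι.rangeRestrictField.injective ?_⟩
  rw [Polynomial.hom_eval₂, map_zero,
    show ι.rangeRestrictField t = Algebra.trace ι.fieldRange F x from Subtype.ext ht]
  exact hQt

/-- For normal `X` and finite separable `ν`, the trace carries sections of the pulled back divisor
to sections. -/
theorem trace_mem_map_secs [IsFinite ν] [FiniteDimensional (ffMap ν).fieldRange X.functionField]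
    [Algebra.IsSeparable (ffMap ν).fieldRange X.functionField]
    (hnormal : ∀ x : X, IsIntegrallyClosed (X.presheaf.stalk x)) {D : DivData X} {m : ℕ}
    {φ : X.functionField} (hφ : φ ∈ secs f (D.comap ν) m) :
    ∃ t ∈ secs f D m, ffMap ν t =
      (Algebra.trace (ffMap ν).fieldRange X.functionField φ : X.functionField) := by
  obtain ⟨t, ht⟩ := (Algebra.trace (ffMap ν).fieldRange X.functionField φ).2
  refine ⟨t, fun a y hy => ?_, ht⟩
  obtain ⟨_, ⟨W, hW, rfl⟩, hyW, hWa⟩ :=
    X.isBasis_affineOpens.exists_subset_of_mem_open hy (D.U a).isOpen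
  have hηW : genericPoint X ∈ W := genericPoint_mem hyW
  have hη : genericPoint X ∈ ν ⁻¹ᵁ W := by
    change ν.base (genericPoint X) ∈ W
    rwa [genericPoint_of_isDominant]
  obtain ⟨s, hs⟩ := ((hφ a).mono (fun z hz => hWa hz : ν ⁻¹ᵁ W ≤ ν ⁻¹ᵁ D.U a)).exists_section
  obtain ⟨P, hP, hPs⟩ := (ν.finite_app W hW).to_isIntegral s
  let R := X.presheaf.stalk y
  -- the section is integral over the local ring at `y`
  have hint : ((ffMap ν).comp (algebraMap R X.functionField)).IsIntegralElem
      (φ * ffMap ν (D.h a) ^ m) := by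
    refine ⟨P.map (X.presheaf.germ W y hyW).hom, hP.map _, ?_⟩
    have h1 := congrArg (ffVal (genericPoint X) hη) hPs
    rw [map_zero, Polynomial.hom_eval₂, hs] at h1
    rw [Polynomial.eval₂_map]
    refine Eq.trans ?_ h1
    refine congrArg (fun r => Polynomial.eval₂ r (φ * ffMap ν (D.h a) ^ m) P)
      (RingHom.ext fun w => ?_)
    have h2 := ffVal_appLE ν (U := W) (V := ν ⁻¹ᵁ W) le_rfl (genericPoint X) hη w
    rw [← Scheme.Hom.app_eq_appLE] at h2
    refine Eq.trans ?_ h2.symm
    exact congrArg (ffMap ν) (ffVal_indep y (ν.base (genericPoint X)) hyW hη w)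
  have hm : (ffMap ν) (t * D.h a ^ m) =
      (Algebra.trace (ffMap ν).fieldRange X.functionField (φ * ffMap ν (D.h a) ^ m) :
          X.functionField) := by
    have : φ * ffMap ν (D.h a) ^ m = (ffMap ν).rangeRestrictField (D.h a ^ m) • φ := by
      rw [Subfield.smul_def, smul_eq_mul, mul_comm, RingHom.coe_rangeRestrictField, map_pow]
    rw [this, map_smul, smul_eq_mul, Subfield.coe_mul, map_mul, ht, mul_comm]
    rfl
  have := hnormal y
  exact IsIntegrallyClosed.isIntegral_iff.1 (isIntegral_of_trace _ _ hint hm)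

end Fermat.Agent.AbVar.Growth

end
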