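import Mathlib.Tactic

/-!
# The degree of a field endomorphism from the growth of two filtrations

If an endomorphism of a field carries a filtration with growth `m ^ g` into one with growth
`(N m) ^ g`, and the trace goes back, the degree lies between constant multiples of `N ^ g`,
the constants depending only on the first filtration.
-/

set_option autoImplicit false

universe u

noncomputable section

namespace Fermat.Agent.AbVar.Growth

variable {K : Type u} [Field K] {F : Type u} [Field F] [Algebra K F]

/-- Sums of products with elements of a family, independent over the image, embed powers of the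
first space. -/
theorem mul_finrank_le (ι : F →ₐ[K] F) {n : ℕ} {e : Fin n → F}
    (he : LinearIndependent ι.toRingHom.fieldRange e) {P Q : Submodule K F} [Module.Finite K Q]
    [Module.Finite K P] (h : ∀ a ∈ P, ∀ j, ι a * e j ∈ Q) :
    n * Module.finrank K P ≤ Module.finrank K Q := by
  let T : (Fin n → P) →ₗ[K] Q := LinearMap.lsum K (fun _ : Fin n => P) K fun j =>
    ((LinearMap.mulRight K (e j)) ∘ₗ ι.toLinearMap ∘ₗ P.subtype).codRestrict Q fun a => h a a.2 j
  have hT : Function.Injective T := (injective_iff_map_eq_zero T).2 fun a ha => funext fun j =>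
    Subtype.ext <| by
    have h1 : ∑ j, (⟨ι (a j : F), _, rfl⟩ : ι.toRingHom.fieldRange) • e j = 0 := by
      have h2 := congrArg (fun x : Q => (x : F)) ha
      simp only [T, LinearMap.lsum_apply, LinearMap.sum_apply, LinearMap.comp_apply,
        LinearMap.proj_apply, Submodule.coe_sum, Submodule.coe_zero] at h2
      exact h2
    have := congrArg Subtype.val (Fintype.linearIndependent_iff.1 he _ h1 j)
    exact ι.injective (this.trans (map_zero ι).symm)
  simpa [Module.finrank_pi_fintype] using LinearMap.finrank_le_finrank_of_injective hT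

/-- If the traces of the products of `Q` with a basis lie in `ι P`, then `dim Q ≤ n dim P`. -/
theorem finrank_le_mul (ι : F →ₐ[K] F) [FiniteDimensional ι.toRingHom.fieldRange F]
    [Algebra.IsSeparable ι.toRingHom.fieldRange F] {n : ℕ}
    (b : Module.Basis (Fin n) ι.toRingHom.fieldRange F)
    {P Q : Submodule K F} [Module.Finite K P]
    (h : ∀ z ∈ Q, ∀ j, (Algebra.trace ι.toRingHom.fieldRange F (z * b j) : F) ∈
      P.map ι.toLinearMap) :
    Module.finrank K Q ≤ n * Module.finrank K P := by
  let := ι.toRingHom.fieldRange.toField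
  have hK : ∀ c : K, algebraMap K F c ∈ ι.toRingHom.fieldRange :=
    fun c => ⟨algebraMap K F c, ι.commutes c⟩
  let : Algebra K ι.toRingHom.fieldRange := ((algebraMap K F).codRestrict _ hK).toAlgebra
  have : IsScalarTower K ι.toRingHom.fieldRange F := IsScalarTower.of_algebraMap_eq fun c => rfl
  let T₀ : Fin n → Q →ₗ[K] P.map ι.toLinearMap := fun j =>
    ((IsScalarTower.toAlgHom K ι.toRingHom.fieldRange F).toLinearMap ∘ₗ
      (Algebra.trace ι.toRingHom.fieldRange F).restrictScalars K ∘ₗ LinearMap.mulRight K (b j) ∘ₗ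
        Q.subtype).codRestrict _ fun z => h z z.2 j
  have hT : Function.Injective (LinearMap.pi T₀) := (injective_iff_map_eq_zero _).2 fun z hz => by
    refine Subtype.ext ((traceForm_nondegenerate ι.toRingHom.fieldRange F).1 (z : F) fun w => ?_)
    rw [← b.sum_repr w, map_sum]
    refine Finset.sum_eq_zero fun j _ => ?_
    rw [map_smul, Algebra.traceForm_apply]
    have h1 : Algebra.trace ι.toRingHom.fieldRange F ((z : F) * b j) = 0 :=
      Subtype.ext (congrArg (fun x : P.map ι.toLinearMap => (x : F)) (congrFun hz j))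
    rw [h1, smul_zero]
  refine (LinearMap.finrank_le_finrank_of_injective hT).trans ?_
  rw [Module.finrank_pi_fintype, Finset.sum_const, Finset.card_univ, Fintype.card_fin, smul_eq_mul]
  exact Nat.mul_le_mul_left _ (Submodule.finrank_map_le _ _)

/-- The degree is squeezed between multiples of `N ^ g`. -/
theorem degree_sandwich {V V' : ℕ → Submodule K F} {g C M N : ℕ} (ι : F →ₐ[K] F)
    [FiniteDimensional ι.toRingHom.fieldRange F] [Algebra.IsSeparable ι.toRingHom.fieldRange F]
    (hfin : ∀ m, Module.Finite K (V m)) (hC : ∀ m, Module.finrank K (V m) ≤ C * (m + 1) ^ g)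
    (hM : ∀ k, k ^ g ≤ Module.finrank K (V (M * k))) (hN : 0 < N)
    (hequiv : ∀ m, Nonempty (V' m ≃ₗ[K] V (N * m))) (hone : (1 : F) ∈ V' 0)
    (himg : ∀ {m φ}, φ ∈ V m → ι φ ∈ V' m)
    (hmul : ∀ {m n φ ψ}, φ ∈ V' m → ψ ∈ V' n → φ * ψ ∈ V' (m + n)) (hmono : Monotone V')
    (hquot : ∀ φ : F, ∃ m, ∃ a ∈ V' m, ∃ b ∈ V' m, b ≠ 0 ∧ φ = a / b)
    (htrace : ∀ {m φ}, φ ∈ V' m → (Algebra.trace ι.toRingHom.fieldRange F φ : F) ∈
      (V m).map ι.toLinearMap) :
    Module.finrank ι.toRingHom.fieldRange F ≤ C * (M + 2) ^ g * N ^ g ∧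
      N ^ g ≤ Module.finrank ι.toRingHom.fieldRange F * (C * (M + 1) ^ g) := by
  classical
  have hfin' : ∀ m, Module.Finite K (V' m) := fun m => Module.Finite.equiv (hequiv m).some.symm
  -- Products from the `V'` span `F` over the image, so contain a basis, which lies in one `V' c`.
  let S : Submonoid F :=
    { carrier := {φ | ∃ m, φ ∈ V' m}
      one_mem' := ⟨0, hone⟩
      mul_mem' := fun ⟨m, hm⟩ ⟨n, hn⟩ => ⟨m + n, hmul hm hn⟩ }
  have htop : ⊤ ≤ Submodule.span ι.toRingHom.fieldRange (S : Set F) := fun φ _ => by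
    obtain ⟨m, a, ha, b, hb, -, rfl⟩ := hquot φ
    let E := Algebra.adjoin ι.toRingHom.fieldRange (S : Set F)
    have : a / b ∈ E := by
      rw [div_eq_mul_inv]
      exact mul_mem (Algebra.subset_adjoin ⟨m, ha⟩)
        (E.inv_mem_of_algebraic (x := ⟨b, Algebra.subset_adjoin ⟨m, hb⟩⟩)
        (Algebra.IsAlgebraic.isAlgebraic (R := ι.toRingHom.fieldRange) b))
    rwa [← Subalgebra.mem_toSubmodule, Algebra.adjoin_eq_span, Submonoid.closure_eq] at this
  let b₀ := Module.Basis.ofSpan htop
  have hb₀ : Set.range b₀ ⊆ (S : Set F) := Module.Basis.ofSpan_subset htop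
  have := Module.Finite.finite_basis b₀
  have hcard := Module.finrank_eq_nat_card_basis b₀
  let b := b₀.reindex ((Finite.equivFin _).trans (finCongr hcard.symm))
  have hbS : ∀ j, ∃ m, b j ∈ V' m := fun j => hb₀ (by
    rw [Module.Basis.reindex_apply]
    exact Set.mem_range_self _)
  choose mj hmj using hbS
  let c := Finset.univ.sup mj
  have hbc : ∀ j, b j ∈ V' c := fun j => hmono (Finset.le_sup (f := mj) (Finset.mem_univ j)) (hmj j)
  have hck : 0 < (c + 1) ^ g := pow_pos c.succ_pos g
  have hrank : ∀ m, Module.finrank K (V' m) = Module.finrank K (V (N * m)) :=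
    fun m => (hequiv m).some.finrank_eq
  constructor
  -- Above: the products of the basis with `ι V` are independent inside `V'`.
  · have h1 := mul_finrank_le ι b.linearIndependent (P := V (M * (c + 1)))
      (Q := V' (M * (c + 1) + c))
      fun a ha j => hmul (himg ha) (hbc j)
    have h2 := (Nat.mul_le_mul_left _ (hM (c + 1))).trans (h1.trans ((hrank _).le.trans (hC _)))
    refine Nat.le_of_mul_le_mul_right ?_ hck
    refine h2.trans ?_
    rw [mul_assoc C, ← mul_pow, mul_assoc C, ← mul_pow]
    refine Nat.mul_le_mul_left _ (Nat.pow_le_pow_left ?_ g)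
    calc N * (M * (c + 1) + c) + 1 ≤ N * (M * (c + 1) + c) + N * (c + 2) :=
          Nat.add_le_add_left (Nat.mul_pos hN (Nat.succ_pos _)) _
      _ = (M + 2) * N * (c + 1) := by ring
  -- Below: the traces against the basis embed `V'` in copies of `V`.
  · have h1 := finrank_le_mul ι b (Q := V' (M * (c + 1))) (P := V (M * (c + 1) + c))
      fun z hz j => htrace (hmul hz (hbc j))
    have h2 : (N * (c + 1)) ^ g ≤ Module.finrank K (V' (M * (c + 1))) := by
      rw [hrank, mul_left_comm]
      exact hM _
    have h3 := h2.trans (h1.trans (Nat.mul_le_mul_left _ (hC _)))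
    rw [mul_pow] at h3
    refine Nat.le_of_mul_le_mul_right ?_ hck
    refine h3.trans ?_
    rw [mul_assoc, mul_assoc C, ← mul_pow]
    refine Nat.mul_le_mul_left _ (Nat.mul_le_mul_left _ (Nat.pow_le_pow_left ?_ g))
    calc M * (c + 1) + c + 1 = (M + 1) * (c + 1) := by ring
      _ ≤ _ := le_rfl

end Fermat.Agent.AbVar.Growth

end
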