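import Fermat.Agent.AbVar.Count.Regular

/-!
# Centres of valuations of the function field of a proper scheme

Every valuation ring of the function field containing the base field has a centre (`exists_centre`).
Hence the sections of the multiples of a divisor with given complement have poles bounded by the
powers of finitely many functions at every such valuation ring (`exists_bound`).
-/

set_option autoImplicit false

universe u

noncomputable section

open CategoryTheory AlgebraicGeometry TopologicalSpace

namespace Fermat.Agent.AbVar.Growth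

variable {X : Scheme.{u}} [IsIntegral X] {K : Type u} [Field K] (f : X ⟶ Spec (CommRingCat.of K))

theorem fromSpecStalk_genericPoint_comp :
    letI := ffAlgebra f
    X.fromSpecStalk (genericPoint X) ≫ f =
        Spec.map (CommRingCat.ofHom (algebraMap K X.functionField)) := by
  let := ffAlgebra f
  refine ext_of_isAffine ?_
  rw [Scheme.Hom.comp_appTop, Scheme.fromSpecStalk_appTop,
    ← cancel_epi (Scheme.ΓSpecIso (CommRingCat.of K)).inv]
  refine CommRingCat.hom_ext (RingHom.ext fun c => ?_)
  refine Eq.trans ?_ (DFunLike.congr_fun (congrArg CommRingCat.Hom.hom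
    (Scheme.ΓSpecIso_inv_naturality (CommRingCat.ofHom (algebraMap K X.functionField)))) c)
  change (Spec (X.presheaf.stalk (genericPoint X))).presheaf.map (homOfLE le_top).op _ = _
  rw [Subsingleton.elim (homOfLE le_top).op (𝟙 _), CategoryTheory.Functor.map_id]
  rfl

/-- The centre of a valuation ring over the base. -/
theorem exists_centre [IsProper f] (O : ValuationSubring X.functionField)
    (hK : letI := ffAlgebra f; ∀ c, algebraMap K X.functionField c ∈ O) :
    ∃ y : X, ∀ φ ∈ localRing y, φ ∈ O := by
  let := ffAlgebra f
  have hval : ValuativeCriterion.Existence f :=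
    ((IsProper.eq_valuativeCriterion ▸ ‹IsProper f› :
      (ValuativeCriterion ⊓ @QuasiCompact ⊓ @QuasiSeparated ⊓
        @LocallyOfFiniteType) f).1.1.1).existence
  let σ : K →+* O := (algebraMap K X.functionField).codRestrict O hK
  have hsq : CommSq (X.fromSpecStalk (genericPoint X))
      (Spec.map (CommRingCat.ofHom (algebraMap O X.functionField))) f
          (Spec.map (CommRingCat.ofHom σ)) :=
    ⟨(fromSpecStalk_genericPoint_comp f).trans
      (Spec.map_comp (CommRingCat.ofHom σ) (CommRingCat.ofHom (algebraMap O X.functionField)))⟩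
  let S : ValuativeCommSq f :=
    { R := O, K := X.functionField, i₁ := X.fromSpecStalk (genericPoint X),
      i₂ := Spec.map (CommRingCat.ofHom σ), commSq := hsq }
  obtain ⟨⟨l, hl, -⟩⟩ := (CommSq.HasLift.iff _).1 (hval S)
  let y : X := l (IsLocalRing.closedPoint O)
  have hy : genericPoint X ⤳ y := (genericPoint_spec X).specializes trivial
  have h1 : Spec.map (Scheme.stalkClosedPointTo l ≫
      CommRingCat.ofHom (algebraMap O X.functionField)) ≫
      X.fromSpecStalk y = Spec.map (X.presheaf.stalkSpecializes hy) ≫ X.fromSpecStalk y := by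
    rw [Scheme.SpecMap_stalkSpecializes_fromSpecStalk, Spec.map_comp, Category.assoc,
      Scheme.Spec_stalkClosedPointTo_fromSpecStalk]
    exact hl
  have h2 := Spec.map_injective ((cancel_mono _).1 h1)
  refine ⟨y, ?_⟩
  rintro _ ⟨a, rfl⟩
  have h3 := congrArg (fun r : X.presheaf.stalk y ⟶ X.functionField => r a) h2
  exact h3 ▸ (Scheme.stalkClosedPointTo l a).2

/-- The sections of the multiples of a divisor have bounded poles. -/
theorem exists_bound [IsProper f] [CompactSpace X] {D : DivData X} {U : X.Opens}
    (hD : D.IsComplement U) :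
    letI := ffAlgebra f
    ∃ S : Finset X.functionField, (∀ h ∈ S, h ≠ 0) ∧ ∀ O : ValuationSubring X.functionField,
      (∀ c, algebraMap K X.functionField c ∈ O) →
        ∃ h ∈ S, h ∈ O ∧ ∀ m φ, φ ∈ secs f D m → φ * h ^ m ∈ O := by
  classical
  obtain ⟨t, ht⟩ := isCompact_univ.elim_finite_subcover (fun a => (D.U a : Set X))
    (fun a => (D.U a).isOpen)
    (fun x _ => Set.mem_iUnion.2 (Opens.mem_iSup.mp (D.covers.ge (Opens.mem_top x))))
  refine ⟨t.image D.h, fun h hh => ?_, fun O hK => ?_⟩
  · obtain ⟨a, -, rfl⟩ := Finset.mem_image.1 hh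
    exact D.ne_zero a
  · obtain ⟨y, hy⟩ := exists_centre f O hK
    obtain ⟨a, ha, hya⟩ := Set.mem_iUnion₂.1 (ht (Set.mem_univ y))
    exact ⟨D.h a, Finset.mem_image_of_mem _ ha, hy _ (hD.1 a y hya),
      fun m φ hφ => hy _ (hφ a y hya)⟩

end Fermat.Agent.AbVar.Growth

end
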