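import Mathlib.Algebra.MvPolynomial.Nilpotent
import Mathlib.Algebra.MvPolynomial.NoZeroDivisors
import Mathlib.RingTheory.Valuation.LocalSubring
import Mathlib.Tactic

/-!
# The valuation at infinity of a field of rational functions, by total degree

`atInfinity K g` is the valuation ring of the rational functions of total degree at most zero in `g`
variables, with uniformiser `unif K g`. An element of an extension field lying in every valuation
ring containing it is integral over it.
-/

set_option autoImplicit false

universe u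

noncomputable section

open MvPolynomial

namespace Fermat.Agent.AbVar.Growth

variable (K : Type u) [Field K] (g : ℕ)

/-- Polynomials in `g` variables. -/
abbrev Poly : Type u := MvPolynomial (Fin g) K

/-- Rational functions in `g` variables. -/
abbrev Rat : Type u := FractionRing (Poly K g)

/-- A polynomial of degree one, or the constant one if there are no variables. -/
def lead : Poly K g := if h : 0 < g then X ⟨0, h⟩ else 1

theorem lead_ne_zero : lead K g ≠ 0 := by
  rw [lead]; split <;> simp [X_ne_zero]

theorem totalDegree_lead_le : (lead K g).totalDegree ≤ 1 := by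
  rw [lead]; split <;> simp

theorem exists_totalDegree_le (a : Poly K g) : ∃ n, a.totalDegree ≤ n * (lead K g).totalDegree := by
  refine ⟨a.totalDegree, ?_⟩
  rcases Nat.eq_zero_or_pos g with rfl | h
  · rw [show a.totalDegree = 0 by rw [eq_C_of_isEmpty a, totalDegree_C]]
    simp
  · rw [show (lead K g).totalDegree = 1 by rw [lead, dif_pos h, totalDegree_X], mul_one]

/-- The inverse of the degree one polynomial: a uniformiser at infinity. -/
def unif : Rat K g := (algebraMap (Poly K g) (Rat K g) (lead K g))⁻¹

/-- The rational functions of degree at most zero. -/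
def atInfinity : ValuationSubring (Rat K g) where
  carrier := {z | ∃ a b : Poly K g, b ≠ 0 ∧ z = algebraMap _ _ a / algebraMap _ _ b ∧
    a.totalDegree ≤ b.totalDegree}
  mul_mem' := by
    rintro _ _ ⟨a, b, hb, rfl, h⟩ ⟨a', b', hb', rfl, h'⟩
    refine ⟨a * a', b * b', mul_ne_zero hb hb', by rw [map_mul, map_mul, div_mul_div_comm], ?_⟩
    rw [totalDegree_mul_of_isDomain hb hb']
    exact (totalDegree_mul a a').trans (add_le_add h h')
  one_mem' := ⟨1, 1, one_ne_zero, by simp, le_rfl⟩
  add_mem' := by
    rintro _ _ ⟨a, b, hb, rfl, h⟩ ⟨a', b', hb', rfl, h'⟩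
    refine ⟨a * b' + b * a', b * b', mul_ne_zero hb hb', ?_, ?_⟩
    · rw [map_add, map_mul, map_mul, map_mul, div_add_div _ _
        ((map_ne_zero_iff _ (IsFractionRing.injective _ _)).2 hb)
        ((map_ne_zero_iff _ (IsFractionRing.injective _ _)).2 hb')]
    · rw [totalDegree_mul_of_isDomain hb hb']
      exact (totalDegree_add _ _).trans (max_le ((totalDegree_mul _ _).trans (by omega))
        ((totalDegree_mul _ _).trans (by omega)))
  zero_mem' := ⟨0, 1, one_ne_zero, by simp, by simp⟩
  neg_mem' := by
    rintro _ ⟨a, b, hb, rfl, h⟩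
    exact ⟨-a, b, hb, by rw [map_neg, neg_div], by rwa [totalDegree_neg]⟩
  mem_or_inv_mem' := by
    intro z
    obtain ⟨a, b, hb, rfl⟩ := IsFractionRing.div_surjective (Poly K g) z
    have hb' : b ≠ 0 := nonZeroDivisors.ne_zero hb
    rcases eq_or_ne a 0 with rfl | ha
    · exact Or.inl ⟨0, b, hb', rfl, by simp⟩
    rcases le_total a.totalDegree b.totalDegree with h | h
    · exact Or.inl ⟨a, b, hb', rfl, h⟩
    · exact Or.inr ⟨b, a, ha, by rw [inv_div], h⟩

/-- The constants are integral at infinity. -/
theorem algebraMap_mem_atInfinity (c : K) : algebraMap K (Rat K g) c ∈ atInfinity K g :=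
  ⟨C c, 1, one_ne_zero, by
    rw [IsScalarTower.algebraMap_apply K (Poly K g) (Rat K g),
      MvPolynomial.algebraMap_eq]; simp, by simp⟩

/-- The uniformiser is integral at infinity. -/
theorem unif_mem : unif K g ∈ atInfinity K g :=
  ⟨1, lead K g, lead_ne_zero K g, by rw [unif, map_one, one_div], by simp⟩

/-- A high power of the uniformiser brings a rational function into `atInfinity`. -/
theorem exists_unif_pow_mul_mem (z : Rat K g) :
    ∃ n, ∀ N ≥ n, unif K g ^ N * z ∈ atInfinity K g := by
  obtain ⟨a, b, hb, rfl⟩ := IsFractionRing.div_surjective (Poly K g) z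
  have hb' : b ≠ 0 := nonZeroDivisors.ne_zero hb
  obtain ⟨n, hn⟩ := exists_totalDegree_le K g a
  refine ⟨n, fun N hN => ?_⟩
  obtain ⟨e, rfl⟩ := Nat.exists_eq_add_of_le hN
  rw [pow_add, mul_comm (unif K g ^ n), mul_assoc]
  refine mul_mem (pow_mem (unif_mem K g) e) ⟨a, lead K g ^ n * b, ?_, ?_, ?_⟩
  · exact mul_ne_zero (pow_ne_zero _ (lead_ne_zero K g)) hb'
  · rw [unif, map_mul, map_pow, inv_pow, div_mul_eq_div_div_swap, mul_comm, ← div_eq_mul_inv]
  · rw [totalDegree_mul_of_isDomain (pow_ne_zero _ (lead_ne_zero K g)) hb']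
    refine le_add_right (hn.trans ?_)
    clear hn
    induction n with
    | zero => simp
    | succ n ih =>
      rw [pow_succ, totalDegree_mul_of_isDomain (pow_ne_zero _ (lead_ne_zero K g))
        (lead_ne_zero K g), add_mul]
      omega

/-- A polynomial with a pole of order at most `n` at infinity has total degree at most `n`. -/
theorem totalDegree_le_of_unif_pow_mul_mem {p : Poly K g} {n : ℕ}
    (h : unif K g ^ n * algebraMap _ (Rat K g) p ∈ atInfinity K g) : p.totalDegree ≤ n := by
  obtain ⟨a, b, hb, e, hab⟩ := h
  rcases eq_or_ne p 0 with rfl | hp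
  · simp
  have hinj := IsFractionRing.injective (Poly K g) (Rat K g)
  have ht : algebraMap (Poly K g) (Rat K g) (lead K g) ≠ 0 :=
    (map_ne_zero_iff _ hinj).2 (lead_ne_zero K g)
  have e' : p * b = a * lead K g ^ n := hinj <| by
    rw [map_mul, map_mul, map_pow]
    rw [unif, inv_pow] at e
    field_simp [(map_ne_zero_iff _ hinj).2 hb] at e
    linear_combination e
  have h1 := congrArg totalDegree e'
  rw [totalDegree_mul_of_isDomain hp hb] at h1
  have h2 : (lead K g ^ n).totalDegree ≤ n :=
    (totalDegree_pow _ _).trans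
      ((Nat.mul_le_mul_left n (totalDegree_lead_le K g)).trans_eq (mul_one n))
  have h3 := totalDegree_mul a (lead K g ^ n)
  omega

/-- An element lying in every valuation ring which contains the functions of degree at most zero is
integral over them. -/
theorem isIntegral_of_forall_mem {F : Type u} [Field F] [Algebra (Rat K g) F] {z : F}
    (h : ∀ O : ValuationSubring F, (∀ o ∈ atInfinity K g, algebraMap (Rat K g) F o ∈ O) → z ∈ O) :
    IsIntegral (atInfinity K g) z := by
  let f : atInfinity K g →+* F := (algebraMap (Rat K g) F).comp (atInfinity K g).subtype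
  have hmem : z ∈ (⨅ O : {O : ValuationSubring F // Set.range f ⊆ O.toSubring}, O.1.toSubring :
      Subring F) :=
    Subring.mem_iInf.2 fun O => h O.1 fun o ho => O.2 ⟨⟨o, ho⟩, rfl⟩
  rw [iInf_valuationSubring_superset, ← RingHom.coe_range, Subring.closure_eq] at hmem
  obtain ⟨p, hp, hpz⟩ := hmem
  have hsurj : Function.Surjective f.rangeRestrict := f.rangeRestrict_surjective
  obtain ⟨p', hp'⟩ := Polynomial.map_surjective f.rangeRestrict hsurj p
  obtain ⟨P, hP, hdeg, hPm⟩ := Polynomial.lifts_and_degree_eq_and_monic
    (show p ∈ Polynomial.lifts f.rangeRestrict from ⟨p', hp'⟩) hp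
  refine ⟨P, hPm, ?_⟩
  rw [← hP, Polynomial.eval₂_map] at hpz
  exact hpz

end Fermat.Agent.AbVar.Growth

end
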