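import Fermat.Agent.AbVar.Rational

/-!
# The filtration of the affine complement of a divisor by the order of the poles along it

`secs f D m` is the space of rational functions which are sections of the `m`-th multiple of `D`.
For a divisor with affine complement `U` these spaces increase, multiply, and exhaust the regular
functions on `U`, a finitely generated algebra with the whole function field as field of fractions.
-/

set_option autoImplicit false

universe u

noncomputable section

open CategoryTheory AlgebraicGeometry TopologicalSpace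

namespace Fermat.Agent.AbVar.Growth

variable {X : Scheme.{u}} [IsIntegral X]

theorem regularOn_iff {W : X.Opens} {φ : X.functionField} :
    RegularOn W φ ↔ ∀ x ∈ W, φ ∈ localRing x := Iff.rfl

/-- A nonempty open of an integral scheme contains the generic point. -/
theorem genericPoint_mem {W : X.Opens} {x : X} (hx : x ∈ W) : genericPoint X ∈ W :=
  ((genericPoint_spec X).mem_open_set_iff W.isOpen).mpr ⟨x, trivial, hx⟩

/-- The ring of rational functions regular on an open. -/
def regularRing (W : X.Opens) : Subring X.functionField where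
  carrier := {φ | RegularOn W φ}
  mul_mem' := fun h h' => h.mul h'
  one_mem' := regularOn_one W
  add_mem' := fun h h' x hx => add_mem (regularOn_iff.1 h x hx) (regularOn_iff.1 h' x hx)
  zero_mem' := fun x _ => (localRing x).zero_mem
  neg_mem' := fun h x hx => (localRing x).neg_mem (h x hx)

section base

variable {K : Type u} [Field K] (f : X ⟶ Spec (CommRingCat.of K))

theorem algebraMap_mem (W : X.Opens) (c : K) :
    letI := ffAlgebra f; algebraMap K X.functionField c ∈ regularRing W := by
  refine fun x _ => ⟨X.presheaf.germ ⊤ x trivial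
    (f.appTop ((Scheme.ΓSpecIso (CommRingCat.of K)).inv c)), ?_⟩
  have : Nonempty (⊤ : X.Opens) := ⟨⟨genericPoint X, trivial⟩⟩
  exact Scheme.algebraMap_germ_eq_germToFunctionField X (U := ⊤) trivial _

/-- The regular functions on an open as an algebra over the base field. -/
def regularAlgebra (W : X.Opens) : letI := ffAlgebra f; Subalgebra K X.functionField :=
  letI := ffAlgebra f
  { regularRing W with algebraMap_mem' := algebraMap_mem f W }

/-- The regular functions on an affine open form an algebra of finite type over the field. -/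
theorem finiteType_regularAlgebra [LocallyOfFiniteType f] {U : X.Opens} (hU : IsAffineOpen U)
    (hne : (U : Set X).Nonempty) :
    letI := ffAlgebra f; Algebra.FiniteType K (regularAlgebra f U) := by
  let := ffAlgebra f
  have : Nonempty U := hne.to_subtype
  let σ : K →+* Γ(X, U) :=
    (f.appLE ⊤ U le_top).hom.comp (Scheme.ΓSpecIso (CommRingCat.of K)).inv.hom
  let : Algebra K Γ(X, U) := σ.toAlgebra
  have hσ : σ.FiniteType := (f.finiteType_appLE (isAffineOpen_top _) hU le_top).comp
    (RingHom.FiniteType.of_surjective _
      (Scheme.ΓSpecIso (CommRingCat.of K)).commRingCatIsoToRingEquiv.symm.surjective)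
  have : Algebra.FiniteType K Γ(X, U) := hσ
  let τ : Γ(X, U) →ₐ[K] regularAlgebra f U :=
    { toFun := fun s => ⟨X.germToFunctionField U s, regularOn_of_ffVal_eq s fun x hx =>
        ffVal_eq_germToFunctionField x hx s⟩
      map_one' := Subtype.ext (map_one _)
      map_mul' := fun _ _ => Subtype.ext (map_mul _ _ _)
      map_zero' := Subtype.ext (map_zero _)
      map_add' := fun _ _ => Subtype.ext (map_add _ _ _)
      commutes' := fun c => Subtype.ext <| X.presheaf.germ_res_apply (homOfLE (le_top : U ≤ ⊤))
        (genericPoint X) (genericPoint_mem hne.some_mem) _ }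
  refine Algebra.FiniteType.of_surjective τ fun φ => ?_
  obtain ⟨s, hs⟩ := RegularOn.exists_section φ.2
  exact ⟨s, Subtype.ext ((ffVal_eq_germToFunctionField _ hne.some_mem s).symm.trans
    (hs _ hne.some_mem))⟩

/-- Every rational function is a quotient of functions regular on a given affine open. -/
theorem exists_div_regularAlgebra {U : X.Opens} (hU : IsAffineOpen U) (hne : (U : Set X).Nonempty)
    (φ : X.functionField) :
    ∃ a ∈ regularAlgebra f U, ∃ b ∈ regularAlgebra f U, b ≠ 0 ∧ φ = a / b := by
  have : Nonempty U := hne.to_subtype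
  have := functionField_isFractionRing_of_isAffineOpen X U hU
  obtain ⟨a, b, hb, rfl⟩ := IsFractionRing.div_surjective (A := Γ(X, U)) φ
  exact ⟨_, regularOn_of_ffVal_eq a fun x hx => ffVal_eq_germToFunctionField x hx a, _,
    regularOn_of_ffVal_eq b fun x hx => ffVal_eq_germToFunctionField x hx b,
    (map_ne_zero_iff _ (IsFractionRing.injective _ _)).2 (nonZeroDivisors.ne_zero hb), rfl⟩

/-- The sections of the `m`-th multiple of a divisor. -/
def secs (D : DivData X) (m : ℕ) : letI := ffAlgebra f; Submodule K X.functionField :=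
  letI := ffAlgebra f
  { carrier := {φ | D.IsSectionPow m φ}
    add_mem' := fun {φ ψ} h h' a => by
      rw [add_mul]; exact (regularRing (D.U a)).add_mem (h a) (h' a)
    zero_mem' := fun a => by
      rw [zero_mul]; exact (regularRing (D.U a)).zero_mem
    smul_mem' := fun c φ h a => by
      rw [Algebra.smul_def, mul_assoc]; exact (regularRing (D.U a)).mul_mem
        (algebraMap_mem f _ c) (h a) }

/-- Constants are sections of the zero multiple of a divisor. -/
theorem one_mem_secs (D : DivData X) : (1 : X.functionField) ∈ secs f D 0 := fun a => by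
  rw [pow_zero, mul_one]; exact regularOn_one _

/-- Sections of multiples of a divisor multiply into the sum of the multiples. -/
theorem mul_mem_secs {D : DivData X} {m n : ℕ} {φ ψ : X.functionField} (hφ : φ ∈ secs f D m)
    (hψ : ψ ∈ secs f D n) : φ * ψ ∈ secs f D (m + n) := fun a => by
  rw [pow_add, mul_mul_mul_comm]; exact (hφ a).mul (hψ a)

/-- The sections of the multiples of an effective divisor increase. -/
theorem secs_mono {D : DivData X} {W : X.Opens} (hD : D.IsComplement W) :
    Monotone (secs f D) := fun m n hmn φ hφ a => by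
  obtain ⟨k, rfl⟩ := Nat.exists_eq_add_of_le hmn
  rw [pow_add, ← mul_assoc]
  exact (hφ a).mul ((regularRing (D.U a)).pow_mem (hD.1 a) k)

end base

/-- A regular function on the complement becomes regular after multiplication by a power of the
equation. -/
theorem exists_mul_pow_regular {D : DivData X} {U : X.Opens} (hD : D.IsComplement U)
    {φ : X.functionField} (hφ : RegularOn U φ) (x : X) :
    ∃ (W : X.Opens) (a : D.ι) (m : ℕ), x ∈ W ∧ W ≤ D.U a ∧ RegularOn W (φ * D.h a ^ m) := by
  obtain ⟨a, hxa⟩ := Opens.mem_iSup.mp (D.covers.ge (Opens.mem_top x))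
  obtain ⟨_, ⟨W, hW, rfl⟩, hxW, hWa⟩ :=
    X.isBasis_affineOpens.exists_subset_of_mem_open hxa (D.U a).isOpen
  obtain ⟨s, hs⟩ := ((hD.1 a).mono hWa).exists_section
  have hη : genericPoint X ∈ W := genericPoint_mem hxW
  have hle : X.basicOpen s ≤ U := fun z hz => by
    have hzW : z ∈ W := X.basicOpen_le s hz
    exact (hD.2 a z (hWa hzW)).2 ⟨((X.mem_basicOpen s z hzW).1 hz).unit, hs z hzW⟩
  have hne : genericPoint X ∈ X.basicOpen s := (X.mem_basicOpen s _ hη).2
    (isUnit_iff_ne_zero.2 fun h0 => D.ne_zero a <| by
      rw [← hs _ hη]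
      simp [ffVal, h0])
  obtain ⟨t, ht⟩ := (hφ.mono hle).exists_section
  have := hW.isLocalization_basicOpen s
  obtain ⟨n, r, hr⟩ := IsLocalization.Away.surj s t
  refine ⟨W, a, n, hxW, hWa, regularOn_of_ffVal_eq r fun z hz => ?_⟩
  have h1 : t * res X (X.basicOpen_le s) s ^ n = res X (X.basicOpen_le s) r := hr
  have h2 := congrArg (ffVal _ hne) h1
  rw [map_mul, map_pow, ffVal_res, ffVal_res, ht, hs] at h2
  rw [h2]
  exact ffVal_indep _ _ _ _ _

/-- The multiples of a divisor exhaust the regular functions on its complement. -/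
theorem exists_mem_secs {K : Type u} [Field K] (f : X ⟶ Spec (CommRingCat.of K)) [CompactSpace X]
    {D : DivData X} {U : X.Opens} (hD : D.IsComplement U) {φ : X.functionField}
    (hφ : RegularOn U φ) :
    ∃ m, φ ∈ secs f D m := by
  choose W a m hxW hWa hreg using exists_mul_pow_regular hD hφ
  obtain ⟨t, ht⟩ := isCompact_univ.elim_finite_subcover (fun x => (W x : Set X))
    (fun x => (W x).isOpen)
    (fun x _ => Set.mem_iUnion.2 ⟨x, hxW x⟩)
  refine ⟨t.sup m, fun b y hy => ?_⟩
  obtain ⟨x, hx, hyx⟩ := Set.mem_iUnion₂.1 (ht (Set.mem_univ y))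
  obtain ⟨k, hk⟩ := Nat.exists_eq_add_of_le (Finset.le_sup (f := m) hx)
  have e : φ * D.h b ^ t.sup m = φ * D.h (a x) ^ m x * (D.h b / D.h (a x)) ^ m x * D.h b ^ k := by
    have := D.ne_zero (a x)
    rw [hk, pow_add, div_pow]
    field_simp
  rw [e]
  exact mul_mem (S := Subring X.functionField) (s := localRing y)
    (mul_mem (hreg x y hyx) (pow_mem ((D.unit b (a x)).2.1 y ⟨hy, hWa x hyx⟩ : _ ∈ localRing y) _))
    (pow_mem (hD.1 b y hy : _ ∈ localRing y) _)

/-- Sections of the multiples of a divisor are regular on its complement. -/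
theorem secs_le {K : Type u} [Field K] (f : X ⟶ Spec (CommRingCat.of K)) {D : DivData X}
    {U : X.Opens} (hD : D.IsComplement U) {m : ℕ} {φ : X.functionField} (hφ : φ ∈ secs f D m) :
    RegularOn U φ := by
  intro y hy
  obtain ⟨a, hya⟩ := Opens.mem_iSup.mp (D.covers.ge (Opens.mem_top y))
  obtain ⟨s, hs⟩ := (hD.2 a y hya).1 hy
  have h1 : ((D.h a)⁻¹) ∈ localRing y := ⟨(s⁻¹ : (X.presheaf.stalk y)ˣ), by
    rw [map_units_inv, hs]⟩
  have e : φ = φ * D.h a ^ m * (D.h a)⁻¹ ^ m := by
    rw [mul_assoc, ← mul_pow, mul_inv_cancel₀ (D.ne_zero a), one_pow, mul_one]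
  rw [e]
  exact mul_mem (hφ a y hya : _ ∈ localRing y) (pow_mem h1 m)

end Fermat.Agent.AbVar.Growth

end
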